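import Fermat.Agent.VonKoch.Perron

/-!
# Partial sums from a bound on a vertical line, with the constant

If `‖g (σ + it)‖ ≤ C (1 + t²) ^ (η/2)` for `σ₁ ≤ σ ≤ 2` then the partial sums of the series of `g`
are at most `32 C (2 + 2/η) x ^ (σ₁ + 2η)`, up to one coefficient.
-/

set_option autoImplicit false

noncomputable section

namespace FA.MertensRH

open Complex MeasureTheory Filter Topology Set
open FA.VonKoch (firstMoment momentFn weight)
open FA.ZeroFree (decay integrable_decay)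
open scoped Real

variable {f : ℕ → ℂ} {g : ℂ → ℂ} {σ₁ η C : ℝ}

theorem integrable_lineWeight (hη : 0 < η) :
    Integrable fun y : ℝ => (1 + y ^ 2) ^ (-(1 + η) / 2) := by
  have h := integrable_rpow_neg_one_add_norm_sq (E := ℝ) (μ := volume) (r := 1 + η)
    (by simpa using hη)
  refine h.congr (Eventually.of_forall fun y => ?_)
  simp

/-- `∫ (1 + y²) ^ (-(1 + η)/2) ≤ 2 + 2/η`. -/
theorem integral_lineWeight_le (hη : 0 < η) :
    (∫ y : ℝ, (1 + y ^ 2) ^ (-(1 + η) / 2)) ≤ 2 + 2 / η := by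
  obtain ⟨W, hW⟩ : ∃ W : ℝ → ℝ, W = fun y => (1 + y ^ 2) ^ (-(1 + η) / 2) := ⟨_, rfl⟩
  have hWi : Integrable W := hW ▸ integrable_lineWeight hη
  rw [show (fun y : ℝ => (1 + y ^ 2) ^ (-(1 + η) / 2)) = fun y => W |y| by
    funext y; rw [hW]; simp only [sq_abs], integral_comp_abs,
    ← Ioc_union_Ioi_eq_Ioi zero_le_one,
    setIntegral_union Set.Ioc_disjoint_Ioi_same measurableSet_Ioi hWi.integrableOn
      hWi.integrableOn]
  have h1 : (∫ y in Ioc (0 : ℝ) 1, W y) ≤ 1 := by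
    refine (setIntegral_mono_on hWi.integrableOn (integrableOn_const (by simp) (by simp))
      measurableSet_Ioc fun y _ => ?_).trans
        (le_of_eq (by simp : (∫ _ in Ioc (0 : ℝ) 1, (1 : ℝ)) = 1))
    rw [hW]
    exact Real.rpow_le_one_of_one_le_of_nonpos (by nlinarith [sq_nonneg y]) (by linarith)
  have h2 : (∫ y in Ioi (1 : ℝ), W y) ≤ 1 / η := by
    refine (setIntegral_mono_on hWi.integrableOn
      (integrableOn_Ioi_rpow_of_lt (show -(1 + η) < -1 by linarith) one_pos)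
      measurableSet_Ioi fun y hy => ?_).trans (le_of_eq ?_)
    · rw [mem_Ioi] at hy
      rw [hW]
      refine (Real.rpow_le_rpow_of_nonpos (show 0 < y ^ 2 by positivity)
        (show y ^ 2 ≤ 1 + y ^ 2 by linarith) (by linarith)).trans (le_of_eq ?_)
      rw [← Real.rpow_natCast, ← Real.rpow_mul (by linarith)]
      congr 1
      push_cast
      ring
    · rw [integral_Ioi_rpow_of_lt (show -(1 + η) < -1 by linarith) one_pos, Real.one_rpow,
        show -(1 + η) + 1 = -η by ring, neg_div_neg_eq]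
  have : 2 / η = 2 * (1 / η) := by ring
  linarith

/-- **The bound for the partial sums.** -/
theorem norm_sum_le_of_weight
    (hS : ∀ s : ℂ, 1 < s.re → LSeriesSummable f s ∧ LSeries f s = g s)
    (hσ₁ : 1 / 2 ≤ σ₁) (hσ1 : σ₁ ≤ 1) (hη : 0 < η) (hη1 : η ≤ 1 / 2) (hC : 0 ≤ C)
    (hd : ∀ s : ℂ, σ₁ ≤ s.re → s.re ≤ 2 → DifferentiableAt ℂ g s)
    (hb : ∀ s : ℂ, σ₁ ≤ s.re → s.re ≤ 2 → ‖g s‖ ≤ C * weight η s.im) {x : ℝ} (hx : 1 ≤ x) :
    ‖∑ n ∈ Finset.Icc 1 ⌊x⌋₊, f n‖ ≤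
      32 * C * (2 + 2 / η) * x ^ (σ₁ + 2 * η) + ‖f (⌊x⌋₊ + 1)‖ := by
  obtain ⟨W, hW⟩ : ∃ W : ℝ → ℝ, W = fun y => (1 + y ^ 2) ^ (-(1 + η) / 2) := ⟨_, rfl⟩
  have hWi : Integrable W := hW ▸ integrable_lineWeight hη
  have hx0 : 0 < x := by linarith
  have hB := fun {z : ℝ} (hz : 0 < z) (y : ℝ) => FA.VonKoch.momentFn_bound hσ₁ hη1 hC hd hb hz
    le_rfl (show σ₁ ≤ 2 by linarith) y
  have hline : ∀ z : ℝ, 0 < z → firstMoment f z =
      (z : ℂ) * ((1 / (2 * π)) • ∫ y : ℝ, momentFn g z ((σ₁ : ℂ) + y * I)) := fun z hz => by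
    rw [FA.VonKoch.integral_momentFn_shift hσ₁ hσ1 hη1 hC hd hb hz,
      FA.VonKoch.firstMoment_eq hS hz (by norm_num : (1 : ℝ) < 3 / 2)]
  have hint : ∀ z : ℝ, 0 < z → Integrable fun y : ℝ => momentFn g z ((σ₁ : ℂ) + y * I) :=
    fun z hz => (integrable_decay.const_mul (4 * C * z ^ σ₁)).mono'
      (continuous_iff_continuousAt.2 fun y => ContinuousAt.comp' (g := momentFn g z)
        (hB hz y).1.continuousAt (by fun_prop)).aestronglyMeasurable
      (Eventually.of_forall fun y => (hB hz y).2)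
  have hsum : firstMoment f (x + 1) - firstMoment f x =
      (∑ n ∈ Finset.Icc 1 ⌊x⌋₊, f n) + f (⌊x⌋₊ + 1) * ((x - ⌊x⌋₊ : ℝ) : ℂ) := by
    rw [firstMoment, firstMoment, Nat.floor_add_one hx0.le, Finset.sum_Icc_succ_top (by omega),
      add_sub_right_comm, ← Finset.sum_sub_distrib]
    congr 1
    · exact Finset.sum_congr rfl fun n _ => by push_cast; ring
    · push_cast
      ring
  have hdiff : ‖firstMoment f (x + 1) - firstMoment f x‖ ≤
      32 * C * (2 + 2 / η) * x ^ (σ₁ + 2 * η) := by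
    rw [hline _ (by linarith : (0 : ℝ) < x + 1), hline _ hx0, mul_smul_comm, mul_smul_comm,
      ← smul_sub, ← integral_const_mul, ← integral_const_mul,
      ← integral_sub ((hint _ (by linarith)).const_mul _) ((hint _ hx0).const_mul _), norm_smul,
      Real.norm_eq_abs, abs_of_pos (by positivity)]
    refine (mul_le_of_le_one_left (norm_nonneg _)
      ((div_le_one (by positivity)).2 (by linarith [Real.two_le_pi]))).trans ?_
    refine (norm_integral_le_of_norm_le (hWi.const_mul (8 * C * (2 * x) ^ (σ₁ + 2 * η)))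
      (Eventually.of_forall fun y => ?_)).trans ?_
    · rw [show ((x + 1 : ℝ) : ℂ) * momentFn g (x + 1) ((σ₁ : ℂ) + y * I) -
          (x : ℂ) * momentFn g x ((σ₁ : ℂ) + y * I) =
          g ((σ₁ : ℂ) + y * I) * ((((x + 1 : ℝ) : ℂ) ^ ((σ₁ : ℂ) + y * I + 1) -
            (x : ℂ) ^ ((σ₁ : ℂ) + y * I + 1)) /
              (((σ₁ : ℂ) + y * I) * ((σ₁ : ℂ) + y * I + 1))) by
        rw [momentFn, momentFn,
          cpow_add ((σ₁ : ℂ) + y * I) 1 (ofReal_ne_zero.2 (by linarith : x + 1 ≠ 0)),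
          cpow_add ((σ₁ : ℂ) + y * I) 1 (ofReal_ne_zero.2 hx0.ne'), cpow_one, cpow_one]
        ring, norm_mul]
      have h1 := hb ((σ₁ : ℂ) + y * I) (by simp) (by simp; linarith)
      simp only [add_im, ofReal_im, mul_im, ofReal_re, I_im, I_re, mul_zero, mul_one, zero_add,
        add_zero] at h1
      refine (mul_le_mul h1 (FA.VonKoch.norm_kernel_diff_le hx hσ₁
        (by linarith : (0 : ℝ) ≤ 2 * η) (by linarith) y) (norm_nonneg _)
        (by unfold weight; positivity)).trans (le_of_eq ?_)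
      have e : weight η y * (1 + y ^ 2) ^ (-(1 + 2 * η) / 2) = W y := by
        rw [hW, weight, ← Real.rpow_add (by positivity)]
        congr 1
        ring
      rw [← e]
      ring
    · rw [integral_const_mul, Real.mul_rpow two_pos.le hx0.le]
      have h2 : (2 : ℝ) ^ (σ₁ + 2 * η) ≤ 4 :=
        (Real.rpow_le_rpow_of_exponent_le one_le_two
          (show σ₁ + 2 * η ≤ (2 : ℕ) by push_cast; linarith)).trans_eq
          (by rw [Real.rpow_natCast]; norm_num)
      have h3 : ∫ y, W y ≤ 2 + 2 / η := hW ▸ integral_lineWeight_le hη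
      calc 8 * C * (2 ^ (σ₁ + 2 * η) * x ^ (σ₁ + 2 * η)) * ∫ y, W y
          ≤ 8 * C * (4 * x ^ (σ₁ + 2 * η)) * (2 + 2 / η) := by
            refine mul_le_mul ?_ h3 (integral_nonneg fun y => by rw [hW]; positivity)
              (by positivity)
            gcongr
        _ = _ := by ring
  have hlast : ‖f (⌊x⌋₊ + 1) * ((x - ⌊x⌋₊ : ℝ) : ℂ)‖ ≤ ‖f (⌊x⌋₊ + 1)‖ := by
    rw [norm_mul, Complex.norm_real, Real.norm_eq_abs]
    refine mul_le_of_le_one_right (norm_nonneg _) ?_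
    rw [abs_of_nonneg (sub_nonneg.2 (Nat.floor_le hx0.le))]
    linarith [Nat.lt_floor_add_one x]
  rw [hsum] at hdiff
  have := norm_sub_le ((∑ n ∈ Finset.Icc 1 ⌊x⌋₊, f n) + f (⌊x⌋₊ + 1) * ((x - ⌊x⌋₊ : ℝ) : ℂ))
    (f (⌊x⌋₊ + 1) * ((x - ⌊x⌋₊ : ℝ) : ℂ))
  rw [add_sub_cancel_right] at this
  linarith

end FA.MertensRH

end
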