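import Fermat.Agent.LittlewoodArgument.InvZeta
import Fermat.Agent.MertensRH.SumBound

/-!
# The Mertens function under the Riemann hypothesis

Littlewood's `∑_{n ≤ x} μ n ≪ √x exp (C log x / log log x)`: the line of integration is moved to
`re s = 1/2 + 1 / log log x`, where `1 / ζ` is at most `exp (C log x / log log x)` times
`|s| ^ (C / log log x)`.
-/

set_option autoImplicit false

noncomputable section

namespace FA.MertensRH

open Complex Filter Topology FA.LittlewoodArgument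
open FA.VonKoch (invZeta weight mertensFn moebius_series differentiableAt_invZeta)
open scoped Real ArithmeticFunction.Moebius

/-- **Littlewood's bound for the Mertens function.** -/
theorem exists_mertens_littlewood : ∃ C, 0 ≤ C ∧ (FA.ZetaUpper.Critical → ∀ᶠ x : ℝ in atTop,
    |mertensFn x| ≤ √x * Real.exp (C * (Real.log x / Real.log (Real.log x)))) := by
  obtain ⟨C₀, hC₀, hinv⟩ := exists_invZeta_bound
  obtain ⟨C, hC⟩ : ∃ C, C = C₀ + 1 := ⟨_, rfl⟩
  have hC1 : 1 ≤ C := by linarith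
  refine ⟨3 * C + 500, by positivity, fun hRH => ?_⟩
  filter_upwards [(Real.tendsto_log_atTop.comp Real.tendsto_log_atTop).eventually_ge_atTop
    (2 * C + 2), eventually_ge_atTop (Real.exp 8)] with x hxM hx8
  simp only [Function.comp_apply] at hxM
  obtain ⟨L, hL⟩ : ∃ L, L = Real.log x := ⟨_, rfl⟩
  obtain ⟨M, hM⟩ : ∃ M, M = Real.log L := ⟨_, rfl⟩
  rw [← hL, ← hM] at hxM ⊢
  have hx0 : 0 < x := lt_of_lt_of_le (Real.exp_pos _) hx8
  have hx1 : 1 ≤ x := le_trans (Real.one_le_exp (by norm_num)) hx8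
  have hL0 : 0 < L := by
    have := (Real.le_log_iff_exp_le hx0).2 hx8
    linarith
  have hM2 : 2 ≤ M := by linarith
  have hexp : Real.exp M = L := by rw [hM, Real.exp_log hL0]
  obtain ⟨q, hq⟩ : ∃ q, q = L / M := ⟨_, rfl⟩
  rw [← hq]
  have hMq : M ≤ 2 * q := by
    rw [hq, ← hexp, mul_div_assoc', le_div_iff₀ (by linarith)]
    nlinarith [Real.quadratic_le_exp_of_nonneg (show 0 ≤ M by linarith)]
  obtain ⟨σ₁, hσ⟩ : ∃ σ₁, σ₁ = 1 / 2 + 1 / M := ⟨_, rfl⟩
  obtain ⟨η, hη⟩ : ∃ η, η = C / M := ⟨_, rfl⟩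
  have hη0 : 0 < η := hη ▸ by positivity
  have hη1 : η ≤ 1 / 2 := by
    rw [hη, div_le_div_iff₀ (by linarith) two_pos]
    linarith
  have hb : ∀ s : ℂ, σ₁ ≤ s.re → s.re ≤ 2 →
      ‖invZeta s‖ ≤ 3 * Real.exp (C * q) * weight η s.im := by
    intro s hs _
    refine (hinv hRH s M hM2 (hσ ▸ hs)).trans ?_
    rw [hexp, ← hq, mul_add, Real.exp_add, mul_comm (3 : ℝ), mul_assoc]
    refine mul_le_mul (Real.exp_le_exp.2 (mul_le_mul_of_nonneg_right (by linarith)
      (by linarith))) ?_ (Real.exp_pos _).le (Real.exp_pos _).le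
    have hl : 0 ≤ heightLog s.im := Real.log_nonneg (by linarith [abs_nonneg s.im])
    calc Real.exp (C₀ * (heightLog s.im / M)) ≤ Real.exp (η * heightLog s.im) := by
          rw [hη, div_mul_eq_mul_div, mul_div_assoc', Real.exp_le_exp]
          gcongr
          linarith
      _ = (|s.im| + 2) ^ η := by
          rw [Real.rpow_def_of_pos (by positivity), mul_comm, heightLog]
      _ ≤ (3 * √(1 + s.im ^ 2)) ^ η := by
          refine Real.rpow_le_rpow (by positivity) ?_ hη0.le
          linarith [Real.abs_le_sqrt (show s.im ^ 2 ≤ 1 + s.im ^ 2 by linarith),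
            Real.one_le_sqrt.2 (show 1 ≤ 1 + s.im ^ 2 by nlinarith)]
      _ ≤ 3 * weight η s.im := by
          rw [Real.mul_rpow (by norm_num) (Real.sqrt_nonneg _), weight, Real.sqrt_eq_rpow,
            ← Real.rpow_mul (by positivity), show 1 / 2 * η = η / 2 by ring]
          exact mul_le_mul_of_nonneg_right
            (Real.rpow_le_self_of_one_le (by norm_num) (by linarith)) (by positivity)
  have hM' : 1 / M ≤ 1 / 2 := one_div_le_one_div_of_le two_pos hM2
  have hσ₁ : 1 / 2 ≤ σ₁ := by linarith [one_div_pos.2 (show 0 < M by linarith)]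
  have hd : ∀ s : ℂ, σ₁ ≤ s.re → s.re ≤ 2 → DifferentiableAt ℂ invZeta s := fun s hs _ => by
    refine differentiableAt_invZeta fun h0 => ?_
    have hs' : 1 / 2 < s.re := by linarith [one_div_pos.2 (show 0 < M by linarith)]
    have hx : FA.RiemannMangoldt.xiFn s = 0 := by
      rw [FA.RiemannMangoldt.xiFn_eq (by linarith), h0, mul_zero, zero_div]
    linarith [hRH s hx]
  have h := norm_sum_le_of_weight (f := fun n => ((μ n : ℤ) : ℂ))
    (fun s hs => moebius_series hs) hσ₁ (by linarith) hη0 hη1 (by positivity) hd hb hx1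
  have hsum : ∑ n ∈ Finset.Icc 1 ⌊x⌋₊, ((μ n : ℤ) : ℂ) = ((mertensFn x : ℝ) : ℂ) := by
    simp [mertensFn]
  rw [hsum, Complex.norm_real, Real.norm_eq_abs] at h
  have hlast : ‖((μ (⌊x⌋₊ + 1) : ℤ) : ℂ)‖ ≤ 1 := by
    rw [Complex.norm_intCast]
    exact_mod_cast ArithmeticFunction.abs_moebius_le_one
  have hpow : x ^ (σ₁ + 2 * η) = √x * Real.exp ((1 + 2 * C) * q) := by
    rw [show σ₁ + 2 * η = 1 / 2 + (1 + 2 * C) / M by rw [hσ, hη]; ring, Real.rpow_add hx0,
      ← Real.sqrt_eq_rpow, Real.rpow_def_of_pos hx0, ← hL, hq]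
    ring_nf
  have hJ : 2 + 2 / η ≤ 6 * q := by
    have : 2 / η ≤ 2 * M := by
      rw [hη, div_div_eq_mul_div]
      exact div_le_self (by linarith) hC1
    linarith
  have h2 : 32 * (3 * Real.exp (C * q)) * (2 + 2 / η) * x ^ (σ₁ + 2 * η) + 1 ≤
      (600 * q) * (√x * Real.exp ((1 + 3 * C) * q)) := by
    have hsq : 1 ≤ √x := Real.one_le_sqrt.2 hx1
    have hq1 : 1 ≤ q := by linarith
    have he : 1 ≤ Real.exp ((1 + 3 * C) * q) := Real.one_le_exp (by positivity)
    have h3 := mul_le_mul_of_nonneg_right hJ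
      (show 0 ≤ √x * Real.exp ((1 + 3 * C) * q) by positivity)
    have h4 : (1 : ℝ) ≤ q * (√x * Real.exp ((1 + 3 * C) * q)) :=
      one_le_mul_of_one_le_of_one_le hq1 (one_le_mul_of_one_le_of_one_le hsq he)
    rw [hpow]
    have e : Real.exp ((1 + 3 * C) * q) = Real.exp (C * q) * Real.exp ((1 + 2 * C) * q) := by
      rw [← Real.exp_add]
      ring_nf
    rw [e] at h3 h4 ⊢
    linarith
  have hq0 : 0 ≤ q := by linarith
  have h5 : 600 * q ≤ Real.exp (499 * q) := by
    have := Real.quadratic_le_exp_of_nonneg (show 0 ≤ 499 * q by positivity)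
    nlinarith [mul_nonneg hq0 (show 0 ≤ q - 1 by linarith)]
  calc |mertensFn x| ≤ (600 * q) * (√x * Real.exp ((1 + 3 * C) * q)) := by linarith
    _ ≤ Real.exp (499 * q) * (√x * Real.exp ((1 + 3 * C) * q)) :=
        mul_le_mul_of_nonneg_right h5 (by positivity)
    _ = √x * Real.exp ((3 * C + 500) * q) := by
        rw [show (3 * C + 500) * q = 499 * q + (1 + 3 * C) * q by ring, Real.exp_add]
        ring

end FA.MertensRH

end
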